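/-
S26 / AV / Geo : the CONTRACT between the scheme world (block SCH) and the algebraic blocks.
`Geo 𝔸 g`     : one étale chart `U₀ = Spec R₀ ∋ 0` of `A`; its translates cover `A`.
`HasProj 𝔸`   : properness, in the form "`pr₂ : A × W → W` maps closed loci to closed sets".
`CartDiv G P` : the line bundle `O(-V)` of the prime divisor `V = closure of V(P)`, `P ⊆ R₀`.
-/
import Fermat.Agent.S26.Defs

set_option autoImplicit false

open scoped TensorProduct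

universe u

namespace Fermat.Agent.S26

variable {K : Type u} [Field K]

/-- a point of a product functor -/
def PtF.pair {X Y : PtF K} {S : Type u} [CommRing S] [Algebra K S] (a : X.pt S) (b : Y.pt S) :
    (X.prod Y).pt S := (a, b)

/-- the constant point of `𝔸(S)` defined by a `K`-point -/
def AVF.cst (𝔸 : AVF K) (S : Type u) [CommRing S] [Algebra K S] (a : 𝔸.pt K) : 𝔸.pt S :=
  𝔸.map (Algebra.ofId K S) a

/-- geometric properties of the group functor `𝔸` (an abelian variety of dimension `g`) -/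
structure Geo (𝔸 : AVF K) (g : ℕ) where
  R₀ : Type u
  [cr : CommRing R₀]
  [alg : Algebra K R₀]
  [dom : IsDomain R₀]
  [ft : Algebra.FiniteType K R₀]
  /-- the open immersion `U₀ = Spec R₀ → A` -/
  ι₀ : 𝔸.pt R₀
  /-- étale coordinates on `U₀` -/
  y₀ : MvPolynomial (Fin g) K →ₐ[K] R₀
  et : y₀.Etale
  /-- the origin lies in `U₀` -/
  ε₀ : R₀ →ₐ[K] K
  ε₀_ι₀ : 𝔸.map ε₀ ι₀ = 0
  /-- `U₀ → A` is a monomorphism -/
  mono : ∀ {S : Type u} [CommRing S] [Algebra K S] (w w' : R₀ →ₐ[K] S),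
    𝔸.map w ι₀ = 𝔸.map w' ι₀ → w = w'
  /-- `U₀` is open in `A` -/
  zar : ∀ {S : Type u} [CommRing S] [Algebra K S] (u : 𝔸.pt S) (k : Type u) [Field k] [Algebra K k]
    (e : S →ₐ[K] k) (w₀ : R₀ →ₐ[K] k), 𝔸.map e u = 𝔸.map w₀ ι₀ →
    ∃ s : S, e s ≠ 0 ∧ ∃ w : R₀ →ₐ[K] Localization.Away s,
      𝔸.map (Algebra.ofId S (Localization.Away s) |>.restrictScalars K) u = 𝔸.map w ι₀
  /-- finitely many translates of `U₀` cover `A` -/
  cover : ∃ l : List (𝔸.pt K), ∀ (Ψ : Type u) [CommRing Ψ] [IsLocalRing Ψ] [Algebra K Ψ]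
    (u : 𝔸.pt Ψ), ∃ a ∈ l, ∃ w : R₀ →ₐ[K] Ψ, u = 𝔸.map w ι₀ + 𝔸.cst Ψ a
  /-- every `K`-point has a translate of `U₀` centred at it (automatic from `ε₀`) and translations
  preserve the generic point -/
  gen_trans : ∀ a : 𝔸.pt K, ∃ j : R₀ →ₐ[K] FractionRing R₀, Function.Injective j ∧
    𝔸.map j ι₀ = 𝔸.map (IsScalarTower.toAlgHom K R₀ (FractionRing R₀)) ι₀ +
      𝔸.cst (FractionRing R₀) a
  /-- separatedness -/
  sep : ∀ (B F : Type u) [CommRing B] [IsDomain B] [Algebra K B] [Field F] [Algebra K F]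
    [Algebra B F] [IsScalarTower K B F] [IsFractionRing B F],
    Function.Injective (𝔸.map (IsScalarTower.toAlgHom K B F))
  /-- valuative criterion + spreading out + gluing -/
  ded : ∀ (B F : Type u) [CommRing B] [IsDedekindDomain B] [Algebra K B] [Field F] [Algebra K F]
    [Algebra B F] [IsScalarTower K B F] [IsFractionRing B F],
    Function.Surjective (𝔸.map (IsScalarTower.toAlgHom K B F))

attribute [instance] Geo.cr Geo.alg Geo.dom Geo.ft

/-- **Properness**: for a coherent sheaf `𝓗` on `A × W`, `W = Spec R₁`, the set of `w ∈ W(K)` such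
that `dim 𝓗(a, w) ≥ k` for some `a ∈ A(K)` is Zariski closed. -/
def HasProj (𝔸 : AVF K) : Prop :=
  ∀ (R₁ : Type u) [CommRing R₁] [Algebra K R₁] [Algebra.FiniteType K R₁]
    (𝓗 : ModFun (𝔸.toPtF.prod (PtF.ofAlg K R₁))) (k : ℕ),
    ∃ J : Ideal R₁, ∀ w : R₁ →ₐ[K] K,
      (∃ a : 𝔸.pt K, k ≤ Module.finrank K
        (𝓗.H (PtF.pair (Y := PtF.ofAlg K R₁) a w))) ↔ J ≤ RingHom.ker w

namespace Geo

variable {𝔸 : AVF K} {g : ℕ} (G : Geo 𝔸 g)

/-- the function field of `A` -/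
abbrev FF : Type u := FractionRing G.R₀

/-- the generic point -/
def η : 𝔸.pt G.FF := 𝔸.map (IsScalarTower.toAlgHom K G.R₀ G.FF) G.ι₀

/-- function field of the subvariety `V(P)` -/
abbrev kV (P : Ideal G.R₀) : Type u := FractionRing (G.R₀ ⧸ P)

/-- `R₀ → R₀ / P → Frac` -/
def toKV (P : Ideal G.R₀) : G.R₀ →ₐ[K] G.kV P :=
  (IsScalarTower.toAlgHom K (G.R₀ ⧸ P) (G.kV P)).comp (Ideal.Quotient.mkₐ K P)

/-- the generic point of the subvariety `V(P)` -/
def ηV (P : Ideal G.R₀) : 𝔸.pt (G.kV P) := 𝔸.map (G.toKV P) G.ι₀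

end Geo

/-- the line bundle `O(-V)` with its canonical map to `O`, `V` = closure of `V(P) ⊆ U₀` -/
structure CartDiv {𝔸 : AVF K} {g : ℕ} (G : Geo 𝔸 g) (P : Ideal G.R₀) where
  L : LBun 𝔸.toPtF
  can : ∀ {S : Type u} [CommRing S] [Algebra K S] (u : 𝔸.pt S), L.M u →ₗ[S] S
  can_bc : ∀ {S S' : Type u} [CommRing S] [Algebra K S] [CommRing S'] [Algebra K S']
    (φ : S →ₐ[K] S') {u : 𝔸.pt S} {u' : 𝔸.pt S'} (h : 𝔸.map φ u = u') (m : L.M u),
    can u' (L.bc φ h m) = φ (can u m)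
  /-- the ideal of `(V - a) ∩ U₀` -/
  Pa : 𝔸.pt K → Ideal G.R₀
  Pa_zero : Pa 0 = P
  range_can : ∀ (a : 𝔸.pt K) {S : Type u} [CommRing S] [Algebra K S] (w : G.R₀ →ₐ[K] S),
    LinearMap.range (can (𝔸.map w G.ι₀ + 𝔸.cst S a)) = Ideal.map w (Pa a)
  /-- `(V - a) ∩ U₀` is empty or irreducible with the translated generic point -/
  Pa_alt : ∀ a : 𝔸.pt K, Pa a = ⊤ ∨ ((Pa a).IsPrime ∧
    ∃ γ : G.R₀ →ₐ[K] G.kV P, RingHom.ker γ = Pa a ∧
      (∀ z : G.kV P, ∃ b c : G.R₀, γ c ≠ 0 ∧ z * γ c = γ b) ∧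
      𝔸.map γ G.ι₀ + 𝔸.cst (G.kV P) a = G.ηV P)

end Fermat.Agent.S26
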