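/-
S26 / AV / Deg : definitions for the top level chain: degree of a line bundle on `C_κ`, generic value
of a morphism `C → X`, degree of a field valued point of `𝔸`, free compositum of two fields.
-/
import Fermat.Agent.S26.Curve.Pts
import Fermat.Agent.S26.Curve.Ops

set_option autoImplicit false

open scoped TensorProduct

universe u

namespace Fermat.Agent.S26

variable {K : Type u} [Field K]

namespace CMod

variable {C : Curve K} {R : Type u} [CommRing R] [Algebra K R]

/-- cohomological invariants of a line bundle on `C × Spec R` (meaningful when `R` is a field) -/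
noncomputable def h0 (N : CMod C R) : ℕ := N.toP1Mod.h0
noncomputable def h1 (N : CMod C R) : ℕ := N.toP1Mod.h1
noncomputable def chi (N : CMod C R) : ℤ := N.toP1Mod.chi

/-- the degree `χ(N) - χ(O)` -/
noncomputable def deg (N : CMod C R) : ℤ := N.chi - (one C R).chi

end CMod

namespace Curve

/-- the function field of `C` -/
abbrev FF (C : Curve K) : Type u := FractionRing C.B01

/-- `K ⊗ B01 → B01 → Frac B01` -/
noncomputable def toFF (C : Curve K) : C.S01 K →ₐ[K] C.FF :=
  (IsScalarTower.toAlgHom K C.B01 C.FF).comp (Algebra.TensorProduct.lid K C.B01).toAlgHom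

end Curve

/-- the value of `f : C → X` at the generic point of `C` -/
noncomputable def CPt.gen {C : Curve K} {X : PtF K} (f : CPt C X K) : X.pt C.FF :=
  X.map C.toFF f.u01

/-- `Φ` is the fraction field of `F ⊗[K] L` -/
structure IsFreeComp {F L Φ : Type u} [Field F] [Algebra K F] [Field L] [Algebra K L] [Field Φ]
    [Algebra K Φ] (i₁ : F →ₐ[K] Φ) (i₂ : L →ₐ[K] Φ) : Prop where
  inj : Function.Injective (Algebra.TensorProduct.productMap i₁ i₂)
  gen : ∀ z : Φ, ∃ b c : F ⊗[K] L, Algebra.TensorProduct.productMap i₁ i₂ c ≠ 0 ∧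
    z * Algebra.TensorProduct.productMap i₁ i₂ c = Algebra.TensorProduct.productMap i₁ i₂ b

namespace Geo

variable {𝔸 : AVF K} {g : ℕ} (G : Geo 𝔸 g)

open Classical in
/-- the degree `[Φ : u^* K(A)]` of a field valued point (`0` if `u` is not generic or the extension
is infinite) -/
noncomputable def deg {Φ : Type u} [Field Φ] [Algebra K Φ] (u : 𝔸.pt Φ) : ℕ :=
  if h : ∃ j : G.FF →ₐ[K] Φ, 𝔸.map j G.η = u then Module.finrank h.choose.fieldRange Φ else 0

end Geo

end Fermat.Agent.S26
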