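/-
S26 / AV / DG1 : generic points: uniqueness, translations, descent of charts (package DG-1).
-/
import Fermat.Agent.S26.AV.Deg
import Fermat.Agent.S26.AV.Geo
import Fermat.Agent.S26.Alg.EtCot
import Fermat.Agent.S26.Alg.Trdeg

set_option autoImplicit false
set_option linter.unusedSectionVars false

open scoped TensorProduct

universe u

namespace Fermat.Agent.S26

variable {K : Type u} [Field K] [IsAlgClosed K] {𝔸 : AVF K} {g : ℕ}

/-! ### generalities on the group functor -/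

section DG1Aux

variable {S S' : Type u} [CommRing S] [Algebra K S] [CommRing S'] [Algebra K S']

omit [IsAlgClosed K] in
theorem DG1_map_zero (φ : S →ₐ[K] S') : 𝔸.map φ (0 : 𝔸.pt S) = 0 := by
  have h := 𝔸.map_add φ 0 0
  rw [add_zero] at h
  exact left_eq_add.1 h

omit [IsAlgClosed K] in
theorem DG1_map_cst (φ : S →ₐ[K] S') (a : 𝔸.pt K) : 𝔸.map φ (𝔸.cst S a) = 𝔸.cst S' a := by
  unfold AVF.cst
  rw [← 𝔸.map_comp]
  congr 1
  exact AlgHom.ext fun k => φ.commutes k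

omit [IsAlgClosed K] in
theorem DG1_cst_add (a b : 𝔸.pt K) : 𝔸.cst S (a + b) = 𝔸.cst S a + 𝔸.cst S b :=
  𝔸.map_add _ a b

omit [IsAlgClosed K] in
theorem DG1_cst_zero : 𝔸.cst S (0 : 𝔸.pt K) = 0 := DG1_map_zero _

omit [IsAlgClosed K] in
theorem DG1_cst_self (a : 𝔸.pt K) : 𝔸.cst K a = a := by
  unfold AVF.cst
  have h : Algebra.ofId K K = AlgHom.id K K := AlgHom.ext fun _ => rfl
  rw [h, 𝔸.map_id]

omit [IsAlgClosed K] in
theorem DG1_liftAlgHom_comp {A F L : Type u} [CommRing A] [IsDomain A] [Algebra K A] [Field F]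
    [Algebra K F] [Algebra A F] [IsScalarTower K A F] [IsFractionRing A F] [Field L] [Algebra K L]
    {j : A →ₐ[K] L} (hj : Function.Injective j) :
    (IsFractionRing.liftAlgHom (K := F) hj).comp (IsScalarTower.toAlgHom K A F) = j :=
  AlgHom.ext fun x => IsFractionRing.lift_algebraMap hj x

end DG1Aux

omit [IsAlgClosed K] in
theorem Geo.DG1_map_η (G : Geo 𝔸 g) {Φ : Type u} [CommRing Φ] [Algebra K Φ] (j : G.FF →ₐ[K] Φ) :
    𝔸.map j G.η = 𝔸.map (j.comp (IsScalarTower.toAlgHom K G.R₀ G.FF)) G.ι₀ := by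
  unfold Geo.η
  rw [← 𝔸.map_comp]

theorem Geo.η_ext (G : Geo 𝔸 g) {Φ : Type u} [Field Φ] [Algebra K Φ] (j j' : G.FF →ₐ[K] Φ)
    (h : 𝔸.map j G.η = 𝔸.map j' G.η) : j = j' := by
  rw [G.DG1_map_η, G.DG1_map_η] at h
  have h1 := G.mono _ _ h
  apply AlgHom.coe_ringHom_injective
  apply IsFractionRing.ringHom_ext (A := G.R₀)
  intro x
  exact DFunLike.congr_fun h1 x

/-- an endomorphism of the function field inducing the translation by `a` -/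
theorem Geo.DG1_exists_hom (G : Geo 𝔸 g) (a : 𝔸.pt K) : ∃ τ : G.FF →ₐ[K] G.FF,
    𝔸.map τ G.η = G.η + 𝔸.cst G.FF a := by
  obtain ⟨j, hj, h⟩ := G.gen_trans a
  refine ⟨IsFractionRing.liftAlgHom (K := G.FF) hj, ?_⟩
  rw [G.DG1_map_η]
  rw [DG1_liftAlgHom_comp hj, h]
  rfl

theorem Geo.DG1_comp_eq_id (G : Geo 𝔸 g) {a b : 𝔸.pt K} (hab : a + b = 0)
    {τ τ' : G.FF →ₐ[K] G.FF} (h : 𝔸.map τ G.η = G.η + 𝔸.cst G.FF a)
    (h' : 𝔸.map τ' G.η = G.η + 𝔸.cst G.FF b) : τ.comp τ' = AlgHom.id K G.FF := by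
  apply G.η_ext
  rw [𝔸.map_comp, h', 𝔸.map_add, h, DG1_map_cst, add_assoc, ← DG1_cst_add, hab, DG1_cst_zero,
    add_zero, 𝔸.map_id]

theorem Geo.exists_trans (G : Geo 𝔸 g) (a : 𝔸.pt K) : ∃ τ : G.FF ≃ₐ[K] G.FF,
    𝔸.map (τ : G.FF →ₐ[K] G.FF) G.η = G.η + 𝔸.cst G.FF a := by
  obtain ⟨τ, h⟩ := G.DG1_exists_hom a
  obtain ⟨τ', h'⟩ := G.DG1_exists_hom (-a)
  refine ⟨AlgEquiv.ofAlgHom τ τ' (G.DG1_comp_eq_id (add_neg_cancel a) h h')
    (G.DG1_comp_eq_id (neg_add_cancel a) h' h), ?_⟩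
  exact h

theorem Geo.cst_injective (G : Geo 𝔸 g) : Function.Injective (𝔸.cst G.FF) := by
  intro a b hab
  rw [← DG1_map_cst (IsScalarTower.toAlgHom K G.R₀ G.FF) a,
    ← DG1_map_cst (IsScalarTower.toAlgHom K G.R₀ G.FF) b] at hab
  have h1 := G.sep G.R₀ G.FF hab
  have h2 := congrArg (𝔸.map G.ε₀) h1
  rwa [DG1_map_cst, DG1_map_cst, DG1_cst_self, DG1_cst_self] at h2

theorem Geo.trdeg_FF (G : Geo 𝔸 g) : Algebra.trdeg K G.FF = g := by
  rw [trdeg_eq_of_isFractionRing K G.R₀ G.FF]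
  exact et_trdeg K G.R₀ g G.y₀ G.et

theorem Geo.descend_chart (G : Geo 𝔸 g) {Φ Φ' : Type u} [Field Φ] [Algebra K Φ] [Field Φ']
    [Algebra K Φ'] (i : Φ →ₐ[K] Φ') (u : 𝔸.pt Φ) (w' : G.R₀ →ₐ[K] Φ')
    (h : 𝔸.map i u = 𝔸.map w' G.ι₀) : ∃ w : G.R₀ →ₐ[K] Φ, u = 𝔸.map w G.ι₀ ∧ i.comp w = w' := by
  obtain ⟨s, hs, w, hw⟩ := G.zar u Φ' i w' h
  have hs0 : s ≠ 0 := by
    rintro rfl
    exact hs (map_zero i)
  let e : Φ ≃ₐ[Φ] Localization.Away s := IsLocalization.atUnit Φ (Localization.Away s) s hs0.isUnit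
  let ρ : Localization.Away s →ₐ[K] Φ := (e.symm : Localization.Away s →ₐ[Φ] Φ).restrictScalars K
  have hρ : ρ.comp ((Algebra.ofId Φ (Localization.Away s)).restrictScalars K) = AlgHom.id K Φ := by
    apply AlgHom.ext
    intro x
    show e.symm (algebraMap Φ (Localization.Away s) x) = x
    rw [AlgEquiv.commutes]
    rfl
  have hu : u = 𝔸.map (ρ.comp w) G.ι₀ := by
    rw [𝔸.map_comp, ← hw, ← 𝔸.map_comp, hρ, 𝔸.map_id]
  refine ⟨ρ.comp w, hu, G.mono _ _ ?_⟩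
  rw [𝔸.map_comp, ← hu, h]

theorem Geo.exists_eq_ηV (G : Geo 𝔸 g) {Φ : Type u} [Field Φ] [Algebra K Φ] (u : 𝔸.pt Φ) : ∃ (P : Ideal G.R₀) (_ : P.IsPrime) (i : G.kV P →ₐ[K] Φ)
    (a : 𝔸.pt K), u = 𝔸.map i (G.ηV P) + 𝔸.cst Φ a := by
  obtain ⟨l, hl⟩ := G.cover
  obtain ⟨a, -, w, hw⟩ := hl Φ u
  have hP : (RingHom.ker w).IsPrime := RingHom.ker_isPrime w
  have hinj : Function.Injective (Ideal.kerLiftAlg w) := Ideal.kerLiftAlg_injective w
  refine ⟨RingHom.ker w, hP, IsFractionRing.liftAlgHom (K := G.kV (RingHom.ker w)) hinj, a, ?_⟩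
  rw [hw]
  congr 1
  unfold Geo.ηV
  rw [← 𝔸.map_comp]
  congr 1
  apply AlgHom.ext
  intro x
  symm
  exact IsFractionRing.lift_algebraMap hinj (Ideal.Quotient.mk (RingHom.ker w) x)

end Fermat.Agent.S26
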