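/-
S26 / AV / DG2 : the degree of a field valued point: tower law, translation, trdeg,
`deg (n u) = d(n) deg u`.
-/
import Fermat.Agent.S26.AV.DG1
import Fermat.Agent.S26.Alg.Trdeg

set_option autoImplicit false

open scoped TensorProduct

universe u

namespace Fermat.Agent.S26

/-! ### field theory -/

section Fields

variable {K F Φ Φ' : Type u} [Field K] [Field F] [Field Φ] [Field Φ'] [Algebra K F] [Algebra K Φ]
  [Algebra K Φ']

/-- `[Φ : j F]` is the rank of `Φ` for the `F`-module structure defined by `j` -/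
theorem dg2_finrank_fieldRange (j : F →ₐ[K] Φ) :
    Module.finrank j.fieldRange Φ =
      @Module.finrank F Φ _ _ j.toRingHom.toAlgebra.toModule := by
  let := j.toRingHom.toAlgebra
  symm
  unfold Module.finrank
  congr 1
  refine rank_eq_of_equiv_equiv (fun a => (⟨j a, ⟨a, rfl⟩⟩ : j.fieldRange)) (AddEquiv.refl Φ)
    ⟨fun a b h => j.injective (congrArg Subtype.val h), ?_⟩ (fun r m => rfl)
  rintro ⟨_, a, rfl⟩
  exact ⟨a, rfl⟩

theorem dg2_finrank_comp (j : F →ₐ[K] Φ) (i : Φ →ₐ[K] Φ') :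
    Module.finrank (i.comp j).fieldRange Φ' =
      Module.finrank j.fieldRange Φ * Module.finrank i.fieldRange Φ' := by
  rw [dg2_finrank_fieldRange, dg2_finrank_fieldRange, dg2_finrank_fieldRange]
  let a1 := j.toRingHom.toAlgebra
  let a2 := i.toRingHom.toAlgebra
  let a3 := (i.comp j).toRingHom.toAlgebra
  have : IsScalarTower F Φ Φ' := IsScalarTower.of_algebraMap_eq (fun _ => rfl)
  exact (Module.finrank_mul_finrank F Φ Φ').symm

theorem dg2_fieldRange_comp_equiv (j : F →ₐ[K] Φ) (τ : F ≃ₐ[K] F) :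
    (j.comp (τ : F →ₐ[K] F)).fieldRange = j.fieldRange := by
  ext x
  constructor
  · rintro ⟨y, rfl⟩
    exact ⟨τ y, rfl⟩
  · rintro ⟨y, rfl⟩
    exact ⟨τ.symm y, by simp⟩

theorem dg2_trdeg_le (j : F →ₐ[K] Φ) : Algebra.trdeg K F ≤ Algebra.trdeg K Φ :=
  trdeg_le_of_injective j j.injective

theorem dg2_trdeg_eq_of_finrank_ne_zero (j : F →ₐ[K] Φ)
    (h : Module.finrank j.fieldRange Φ ≠ 0) : Algebra.trdeg K Φ = Algebra.trdeg K F := by
  have hfin : Module.Finite j.fieldRange Φ := Module.finite_of_finrank_pos (Nat.pos_of_ne_zero h)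
  have halg : Algebra.IsAlgebraic j.fieldRange Φ := Algebra.IsAlgebraic.of_finite _ _
  have h1 := trdeg_add_eq K j.fieldRange (A := Φ)
  rw [trdeg_eq_zero (R := j.fieldRange) (A := Φ), add_zero] at h1
  rw [← h1]
  apply le_antisymm
  · exact trdeg_le_of_injective (AlgEquiv.ofInjectiveField j).symm.toAlgHom
      (AlgEquiv.ofInjectiveField j).symm.injective
  · exact trdeg_le_of_injective (AlgEquiv.ofInjectiveField j).toAlgHom
      (AlgEquiv.ofInjectiveField j).injective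

end Fields

variable {K : Type u} [Field K] [IsAlgClosed K] {𝔸 : AVF K} {g : ℕ}

/-! ### constants -/

omit [IsAlgClosed K] in
theorem dg2_map_cst {S S' : Type u} [CommRing S] [Algebra K S] [CommRing S'] [Algebra K S']
    (φ : S →ₐ[K] S') (a : 𝔸.pt K) : 𝔸.map φ (𝔸.cst S a) = 𝔸.cst S' a := by
  unfold AVF.cst
  rw [← 𝔸.map_comp]
  congr 1
  exact Subsingleton.elim _ _

omit [IsAlgClosed K] in
theorem dg2_cst_neg (S : Type u) [CommRing S] [Algebra K S] (a : 𝔸.pt K) :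
    𝔸.cst S (-a) = - 𝔸.cst S a := 𝔸.map_neg _ a

omit [IsAlgClosed K] in
theorem dg2_cst_nsmul (S : Type u) [CommRing S] [Algebra K S] (n : ℕ) (a : 𝔸.pt K) :
    𝔸.cst S (n • a) = n • 𝔸.cst S a := 𝔸.map_nsmul _ n a

variable (G : Geo 𝔸 g) {Φ Φ' : Type u} [Field Φ] [Algebra K Φ] [Field Φ'] [Algebra K Φ']

/-- `u` is a generic point -/
def Geo.dg2IsGen (u : 𝔸.pt Φ) : Prop := ∃ j : G.FF →ₐ[K] Φ, 𝔸.map j G.η = u

omit [IsAlgClosed K] in
theorem Geo.dg2_deg_of_not_isGen {u : 𝔸.pt Φ} (h : ¬ G.dg2IsGen u) : G.deg u = 0 := by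
  unfold Geo.deg
  exact dif_neg h

theorem Geo.deg_eq (j : G.FF →ₐ[K] Φ) : G.deg (𝔸.map j G.η) = Module.finrank j.fieldRange Φ := by
  have h : ∃ j' : G.FF →ₐ[K] Φ, 𝔸.map j' G.η = 𝔸.map j G.η := ⟨j, rfl⟩
  unfold Geo.deg
  rw [dif_pos h, G.η_ext _ _ h.choose_spec]

omit [IsAlgClosed K] in
/-- a chart point with injective `w` is generic -/
theorem Geo.dg2_isGen_of_injective (w : G.R₀ →ₐ[K] Φ) (hw : Function.Injective w) :
    G.dg2IsGen (𝔸.map w G.ι₀) := by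
  refine ⟨IsFractionRing.liftAlgHom (K := G.FF) hw, ?_⟩
  unfold Geo.η
  rw [← 𝔸.map_comp]
  congr 1
  ext x
  simp

theorem Geo.dg2_isGen_of_map (i : Φ →ₐ[K] Φ') (u : 𝔸.pt Φ) (h : G.dg2IsGen (𝔸.map i u)) :
    G.dg2IsGen u := by
  obtain ⟨j', hj'⟩ := h
  have h1 : 𝔸.map i u = 𝔸.map (j'.comp (IsScalarTower.toAlgHom K G.R₀ G.FF)) G.ι₀ := by
    rw [𝔸.map_comp, ← hj']
    rfl
  obtain ⟨w, rfl, hw⟩ := G.descend_chart i u _ h1
  apply G.dg2_isGen_of_injective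
  have h2 : Function.Injective (i.comp w) := by
    rw [hw]
    exact j'.injective.comp (IsFractionRing.injective G.R₀ G.FF)
  exact Function.Injective.of_comp (f := i) h2

theorem Geo.deg_map (i : Φ →ₐ[K] Φ') (u : 𝔸.pt Φ) :
    G.deg (𝔸.map i u) = G.deg u * Module.finrank i.fieldRange Φ' := by
  by_cases h : G.dg2IsGen u
  · obtain ⟨j, rfl⟩ := h
    rw [← 𝔸.map_comp, G.deg_eq, G.deg_eq, dg2_finrank_comp]
  · rw [G.dg2_deg_of_not_isGen h, zero_mul]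
    exact G.dg2_deg_of_not_isGen fun h' => h (G.dg2_isGen_of_map i u h')

theorem Geo.dg2_add_cst (j : G.FF →ₐ[K] Φ) (a : 𝔸.pt K) :
    ∃ j' : G.FF →ₐ[K] Φ, 𝔸.map j' G.η = 𝔸.map j G.η + 𝔸.cst Φ a ∧
      j'.fieldRange = j.fieldRange := by
  obtain ⟨τ, hτ⟩ := G.exists_trans a
  refine ⟨j.comp (τ : G.FF →ₐ[K] G.FF), ?_, dg2_fieldRange_comp_equiv j τ⟩
  rw [𝔸.map_comp, hτ, 𝔸.map_add, dg2_map_cst]

theorem Geo.deg_add_cst (u : 𝔸.pt Φ) (a : 𝔸.pt K) : G.deg (u + 𝔸.cst Φ a) = G.deg u := by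
  by_cases h : G.dg2IsGen u
  · obtain ⟨j, rfl⟩ := h
    obtain ⟨j', hj', hr⟩ := G.dg2_add_cst j a
    rw [← hj', G.deg_eq, G.deg_eq, hr]
  · rw [G.dg2_deg_of_not_isGen h]
    apply G.dg2_deg_of_not_isGen
    rintro ⟨j, hj⟩
    apply h
    obtain ⟨j', hj', -⟩ := G.dg2_add_cst j (-a)
    refine ⟨j', ?_⟩
    rw [hj', hj, dg2_cst_neg]
    abel

theorem Geo.deg_eq_zero_of_trdeg_lt (u : 𝔸.pt Φ) (h : Algebra.trdeg K Φ < g) : G.deg u = 0 := by
  apply G.dg2_deg_of_not_isGen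
  rintro ⟨j, -⟩
  have h1 := dg2_trdeg_le j
  rw [G.trdeg_FF] at h1
  exact absurd h (not_lt.2 h1)

theorem Geo.deg_eq_zero_of_lt_trdeg (u : 𝔸.pt Φ) (h : g < Algebra.trdeg K Φ) : G.deg u = 0 := by
  by_cases hu : G.dg2IsGen u
  · obtain ⟨j, rfl⟩ := hu
    rw [G.deg_eq]
    by_contra h0
    have h1 := dg2_trdeg_eq_of_finrank_ne_zero j h0
    rw [G.trdeg_FF] at h1
    rw [h1] at h
    exact lt_irrefl _ h
  · exact G.dg2_deg_of_not_isGen hu

theorem Geo.dg2_trdeg_kV_lt (P : Ideal G.R₀) [P.IsPrime] (hP : P ≠ ⊥) :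
    Algebra.trdeg K (G.kV P) < g := by
  have h1 : Algebra.trdeg K G.R₀ = g := by
    rw [← trdeg_eq_of_isFractionRing K G.R₀ G.FF, G.trdeg_FF]
  have h2 := trdeg_quotient_lt K G.R₀ (by rw [h1]; exact Cardinal.natCast_lt_aleph0) P hP
  rw [h1] at h2
  rwa [trdeg_eq_of_isFractionRing K (G.R₀ ⧸ P) (G.kV P)]

theorem Geo.deg_nsmul (n : ℕ) (u : 𝔸.pt Φ) : G.deg (n • u) = G.deg (n • G.η) * G.deg u := by
  by_cases h : G.dg2IsGen u
  · obtain ⟨j, rfl⟩ := h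
    rw [← 𝔸.map_nsmul, G.deg_map, G.deg_eq]
  · rw [G.dg2_deg_of_not_isGen h, mul_zero]
    obtain ⟨P, hPp, i, a, rfl⟩ := G.exists_eq_ηV u
    have hP : P ≠ ⊥ := by
      rintro rfl
      apply h
      have h1 : G.dg2IsGen (G.ηV (⊥ : Ideal G.R₀)) := by
        apply G.dg2_isGen_of_injective
        have h2 : Function.Injective (Ideal.Quotient.mkₐ K (⊥ : Ideal G.R₀)) := by
          rw [injective_iff_map_eq_zero]
          intro x hx
          have : x ∈ (⊥ : Ideal G.R₀) := Ideal.Quotient.eq_zero_iff_mem.1 hx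
          simpa using this
        exact (IsFractionRing.injective (G.R₀ ⧸ (⊥ : Ideal G.R₀)) (G.kV ⊥)).comp h2
      obtain ⟨j, hj⟩ := h1
      obtain ⟨j', hj', -⟩ := G.dg2_add_cst (i.comp j) a
      exact ⟨j', by rw [hj', 𝔸.map_comp, hj]⟩
    rw [nsmul_add, ← 𝔸.map_nsmul, ← dg2_cst_nsmul, G.deg_add_cst, G.deg_map,
      G.deg_eq_zero_of_trdeg_lt _ (G.dg2_trdeg_kV_lt P hP), zero_mul]

end Fermat.Agent.S26
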