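/-
S26 / AV / DN : `d(n) = n ^ (2 g)` (assembly).  The blocks used (`exists_curves`, `qslot`,
`isFreeComp_of_trdeg`, `Geo.deg_nsmul`, `trdeg_adjoin_iUnion_le`, `Curve.trdeg_FF`) enter as HYPOTHESES of
`DN_deg_nsmul_η`, so that this file has no `sorry` and does not depend on `AV/Chain.lean`.
-/
import Fermat.Agent.S26.AV.Deg
import Fermat.Agent.S26.Alg.FinalArith

set_option autoImplicit false

open scoped TensorProduct

universe u

namespace Fermat.Agent.S26

variable {K : Type u} [Field K] [IsAlgClosed K] {𝔸 : AVF K} {g : ℕ}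

/-- `f ↦ f.gen` as a group homomorphism -/
noncomputable def DN_genHom (C : Curve K) : CPt C 𝔸.toPtF K →+ 𝔸.pt C.FF where
  toFun f := f.gen
  map_zero' := 𝔸.map_zero _
  map_add' _ _ := 𝔸.map_add _ _ _

theorem DN_gen_zsmul {C : Curve K} (f : CPt C 𝔸.toPtF K) (m : ℤ) : (m • f).gen = m • f.gen :=
  (DN_genHom (𝔸 := 𝔸) C).map_zsmul m f

/-- splitting off one slot -/
theorem DN_sum_update {M : Type*} [AddCommGroup M] (x : Fin g → M) (m : Fin g → ℤ) (i : Fin g)
    (c : ℤ) : ∑ j, (Function.update m i c) j • x j =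
      c • x i + ∑ j ∈ Finset.univ.erase i, m j • x j := by
  rw [← Finset.add_sum_erase Finset.univ _ (Finset.mem_univ i), Function.update_self]
  congr 1
  refine Finset.sum_congr rfl fun j hj => ?_
  rw [Function.update_of_ne (Finset.ne_of_mem_erase hj)]

/-- **Block DN**, with the other blocks as hypotheses. -/
theorem DN_deg_nsmul_η (G : Geo 𝔸 g)
    (h_curves : ∃ (C : Fin g → Curve K) (f : ∀ i, CPt (C i) 𝔸.toPtF K) (Φ : Type u) (_ : Field Φ)
      (_ : Algebra K Φ) (ι : ∀ i, (C i).FF →ₐ[K] Φ),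
      Algebra.trdeg K Φ = g ∧
      IntermediateField.adjoin K (⋃ i, Set.range (ι i)) = ⊤ ∧
      0 < G.deg (∑ i, 𝔸.map (ι i) (f i).gen))
    (h_qslot : ∀ {C : Curve K} (f : CPt C 𝔸.toPtF K) (L : Type u) [Field L] [Algebra K L]
      (h : 𝔸.pt L) (Φ : Type u) [Field Φ] [Algebra K Φ] (i₁ : C.FF →ₐ[K] Φ) (i₂ : L →ₐ[K] Φ)
      (_ : IsFreeComp i₁ i₂) (_ : Algebra.trdeg K L + 1 ≤ g) (n : ℕ),
      2 * G.deg (n • 𝔸.map i₁ f.gen + 𝔸.map i₂ h) =
        n * (n + 1) * G.deg (𝔸.map i₁ f.gen + 𝔸.map i₂ h) +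
          n * (n - 1) * G.deg (- 𝔸.map i₁ f.gen + 𝔸.map i₂ h))
    (h_free : ∀ {F Φ : Type u} [Field F] [Algebra K F] [Field Φ] [Algebra K Φ]
      (i₁ : F →ₐ[K] Φ) (L : IntermediateField K Φ) (a b : ℕ) (_ : Algebra.trdeg K F ≤ a)
      (_ : Algebra.trdeg K L ≤ b) (_ : Algebra.trdeg K Φ = (a + b : ℕ))
      (_ : IntermediateField.adjoin K (Set.range i₁ ∪ (L : Set Φ)) = ⊤), IsFreeComp i₁ L.val)
    (h_deg : ∀ {Φ : Type u} [Field Φ] [Algebra K Φ] (n : ℕ) (u : 𝔸.pt Φ),
      G.deg (n • u) = G.deg (n • G.η) * G.deg u)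
    (h_trdeg : ∀ (Φ : Type u) [Field Φ] [Algebra K Φ] (F : Fin g → Type u) [∀ i, Field (F i)]
      [∀ i, Algebra K (F i)] (j : ∀ i, F i →ₐ[K] Φ) (s : Finset (Fin g)) (c : ℕ)
      (_ : ∀ i ∈ s, Algebra.trdeg K (F i) ≤ c),
      Algebra.trdeg K (IntermediateField.adjoin K (⋃ i ∈ s, Set.range (j i))) ≤ (s.card * c : ℕ))
    (h_FF : ∀ C : Curve K, Algebra.trdeg K C.FF = 1)
    (n : ℕ) (hn : 1 ≤ n) : G.deg (n • G.η) = n ^ (2 * g) := by
  classical
  obtain ⟨C, f, Φ, _, _, ι, htrΦ, hgenΦ, hpos⟩ := h_curves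
  set x : Fin g → 𝔸.pt Φ := fun i => 𝔸.map (ι i) (f i).gen with hx
  refine final_arith g (fun n => G.deg (n • G.η)) (fun m => G.deg (∑ i, m i • x i)) ?_ ?_ ?_ n hn
  · -- `hdw`
    intro n _ m
    have h1 : ∑ i, ((n : ℤ) * m i) • x i = n • ∑ i, m i • x i := by
      rw [Finset.smul_sum]
      refine Finset.sum_congr rfl fun i _ => ?_
      rw [mul_smul, natCast_zsmul]
    show G.deg (∑ i, ((n : ℤ) * m i) • x i) = _
    rw [h1, h_deg]
  · -- `hq`
    intro i m n _
    have hg1 : 1 ≤ g := Nat.succ_le_of_lt (lt_of_le_of_lt (Nat.zero_le _) i.2)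
    set s : Finset (Fin g) := Finset.univ.erase i with hs
    have hcard : s.card = g - 1 := by
      rw [hs, Finset.card_erase_of_mem (Finset.mem_univ i), Finset.card_univ, Fintype.card_fin]
    set L : IntermediateField K Φ := IntermediateField.adjoin K (⋃ j ∈ s, Set.range (ι j)) with hL
    have htrL : Algebra.trdeg K L ≤ ((g - 1 : ℕ) : Cardinal) := by
      have h1 := h_trdeg Φ (fun j => (C j).FF) ι s 1 (fun j _ => by
        rw [h_FF]; simp)
      rwa [hcard, mul_one] at h1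
    have hcast : (((g - 1 : ℕ) : Cardinal.{u}) + 1) = (g : Cardinal.{u}) := by
      exact_mod_cast congrArg (Nat.cast : ℕ → Cardinal.{u}) (Nat.sub_add_cancel hg1)
    have htrL1 : Algebra.trdeg K L + 1 ≤ g := by
      rw [← hcast]
      exact add_le_add_left htrL 1
    have hgen : IntermediateField.adjoin K (Set.range (ι i) ∪ (L : Set Φ)) = ⊤ := by
      rw [eq_top_iff, ← hgenΦ]
      refine IntermediateField.adjoin.mono K _ _ ?_
      refine Set.iUnion_subset fun j => ?_
      by_cases hj : j = i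
      · subst hj; exact Set.subset_union_left
      · refine subset_trans ?_ Set.subset_union_right
        refine subset_trans ?_ (IntermediateField.subset_adjoin K _)
        exact Set.subset_biUnion_of_mem (u := fun j => Set.range (ι j))
          (Finset.mem_erase.mpr ⟨hj, Finset.mem_univ j⟩)
    have hfree : IsFreeComp (ι i) L.val :=
      h_free (ι i) L 1 (g - 1) (by rw [h_FF]; simp) htrL (by
        rw [htrΦ]
        congr 1
        omega) hgen
    -- the other slots live over `L`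
    let ι' : ∀ j : {j // j ∈ s}, (C j).FF →ₐ[K] L := fun j =>
      (ι j).codRestrict L.toSubalgebra (fun z => IntermediateField.subset_adjoin K _
        (Set.mem_biUnion (show (j : Fin g) ∈ (s : Set (Fin g)) from j.2) ⟨z, rfl⟩))
    have hι' : ∀ j : {j // j ∈ s}, L.val.comp (ι' j) = ι j := fun j => by
      ext z; rfl
    set h : 𝔸.pt L := ∑ j ∈ s.attach, m j • 𝔸.map (ι' j) (f j).gen with hh
    have hmaph : 𝔸.map L.val h = ∑ j ∈ s, m j • x j := by
      rw [← Finset.sum_attach s (fun j => m j • x j)]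
      show 𝔸.mapHom L.val h = _
      rw [hh, map_sum]
      refine Finset.sum_congr rfl fun j _ => ?_
      rw [map_zsmul]
      show m j • 𝔸.map L.val (𝔸.map (ι' j) (f j).gen) = _
      rw [← 𝔸.map_comp, hι']
    have hgeni : 𝔸.map (ι i) (m i • f i).gen = m i • x i := by
      rw [DN_gen_zsmul, 𝔸.map_zsmul]
    have hq := h_qslot (m i • f i) L h Φ (ι i) L.val hfree htrL1 n
    rw [hgeni, hmaph] at hq
    show 2 * G.deg (∑ j, (Function.update m i ((n : ℤ) * m i)) j • x j) =
      n * (n + 1) * G.deg (∑ j, m j • x j) +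
        n * (n - 1) * G.deg (∑ j, (Function.update m i (- m i)) j • x j)
    have hm : ∑ j, m j • x j = m i • x i + ∑ j ∈ s, m j • x j := by
      have := DN_sum_update x m i (m i)
      rwa [Function.update_eq_self] at this
    rw [DN_sum_update, DN_sum_update, hm, mul_smul, natCast_zsmul, neg_smul]
    exact hq
  · -- `hpos`
    show 0 < G.deg (∑ i, (1 : ℤ) • x i)
    simpa using hpos

end Fermat.Agent.S26
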