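/-
S26 / AV / Par (PAR) : the parallelogram law from `square` + `seesaw` + `deg_pull_trans`.

`par_core` is the statement `par` of `AV/Chain.lean` with the three black boxes of `AV/Chain.lean`
(`square`, `seesaw`, `deg_pull_trans`) as explicit hypotheses, so that in `AV/Chain.lean`
`par G hP 𝓜 h f = par_core 𝓜 h f (square G hP 𝓜 h) (fun 𝓔 => seesaw 𝓔 f h)
  (fun f u => deg_pull_trans G 𝓜 f K u)`.
-/
import Fermat.Agent.S26.Curve.Pic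
import Fermat.Agent.S26.Curve.Fam
import Fermat.Agent.S26.Curve.Pts

set_option autoImplicit false

open scoped TensorProduct

universe u

namespace Fermat.Agent.S26

variable {K : Type u} [Field K]

/-- `(a, b) ↦ b + a` -/
def Par_addH (𝔸 : AVF K) : PtHom (𝔸.toPtF.prod 𝔸.toPtF) 𝔸.toPtF where
  app a := a.2 + a.1
  nat φ a := 𝔸.map_add φ a.2 a.1

/-- `(a, b) ↦ b - a` -/
def Par_subH (𝔸 : AVF K) : PtHom (𝔸.toPtF.prod 𝔸.toPtF) 𝔸.toPtF where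
  app a := a.2 + -a.1
  nat φ a := (𝔸.map_add φ a.2 (-a.1)).trans (congrArg _ (𝔸.map_neg φ a.1))

/-- `(a, b) ↦ b` -/
def Par_sndH (𝔸 : AVF K) : PtHom (𝔸.toPtF.prod 𝔸.toPtF) 𝔸.toPtF where
  app a := a.2
  nat _ _ := rfl

/-- the Mumford type bundle `m^* 𝓜 ⊗ s^* 𝓜 ⊗ (pr₂^* 𝓜)^{-2}` on `𝔸 × 𝔸` -/
noncomputable def Par_E {𝔸 : AVF K} (𝓜 : LBun 𝔸.toPtF) : LBun (𝔸.toPtF.prod 𝔸.toPtF) :=
  (𝓜.comap (Par_addH 𝔸)).tensor ((𝓜.comap (Par_subH 𝔸)).tensor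
    ((𝓜.comap (Par_sndH 𝔸)).dual.tensor (𝓜.comap (Par_sndH 𝔸)).dual))

variable {𝔸 : AVF K} {C : Curve K}

theorem Par_cls_E (𝓜 : LBun 𝔸.toPtF) {R : Type u} [CommRing R] [Algebra K R]
    (u v : CPt C 𝔸.toPtF R) :
    ((Par_E 𝓜).pull (u.pair v)).cls =
      (𝓜.pull (v + u)).cls + ((𝓜.pull (v + -u)).cls + (-(𝓜.pull v).cls + -(𝓜.pull v).cls)) :=
  rfl

theorem Par_cst_zero {R : Type u} [CommRing R] [Algebra K R] :
    CPt.cst C (X := 𝔸.toPtF) (0 : 𝔸.pt R) = 0 := by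
  ext <;> simp [CPt.cst, 𝔸.map_zero]

theorem Par_cst_neg {R : Type u} [CommRing R] [Algebra K R] (a : 𝔸.pt R) :
    CPt.cst C (X := 𝔸.toPtF) (-a) = - CPt.cst C (X := 𝔸.toPtF) a := by
  ext <;> simp [CPt.cst, 𝔸.map_neg]

theorem Par_base_self {X : PtF K} (f : CPt C X K) : f.base K = f := by
  have h : Algebra.ofId K K = AlgHom.id K K := Subsingleton.elim _ _
  ext
  · show X.map (C.m0 (Algebra.ofId K K)) f.u0 = f.u0
    rw [h, Curve.m0, Algebra.TensorProduct.map_id, X.map_id]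
  · show X.map (C.m1 (Algebra.ofId K K)) f.u1 = f.u1
    rw [h, Curve.m1, Algebra.TensorProduct.map_id, X.map_id]
  · show X.map (C.m01 (Algebra.ofId K K)) f.u01 = f.u01
    rw [h, Curve.m01, Algebra.TensorProduct.map_id, X.map_id]

variable [IsAlgClosed K]

/-- **PAR**, with the black boxes `square`, `seesaw`, `deg_pull_trans` as hypotheses. -/
theorem par_core (𝓜 : LBun 𝔸.toPtF) (h f : CPt C 𝔸.toPtF K)
    -- `square G hP 𝓜 h`
    (hsq : ∀ y z : 𝔸.pt K,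
      Nonempty (CMod.Iso ((𝓜.pull (h + CPt.cst C (y + z))).tensor (𝓜.pull h))
        ((𝓜.pull (h + CPt.cst C y)).tensor (𝓜.pull (h + CPt.cst C z)))))
    -- `fun 𝓔 => seesaw 𝓔 f h`
    (hss : ∀ 𝓔 : LBun (𝔸.toPtF.prod 𝔸.toPtF),
      (∀ a : 𝔸.toPtF.pt K, Nonempty (CMod.Iso (𝓔.pull ((CPt.cst C a).pair h)) (CMod.one C K))) →
      ∃ y₀ : 𝔸.toPtF.pt K,
        Nonempty (CMod.Iso (𝓔.pull (f.pair h)) (𝓔.pull (f.pair (CPt.cst C y₀)))))
    -- `fun f u => deg_pull_trans G 𝓜 f K u`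
    (hTI : ∀ (f : CPt C 𝔸.toPtF K) (u : 𝔸.pt K),
      (𝓜.pull (f.base K + CPt.cst C u)).deg = (𝓜.pull f).deg) :
    (𝓜.pull (h + f)).deg + (𝓜.pull (h - f)).deg =
      2 * (𝓜.pull h).deg + (𝓜.pull f).deg + (𝓜.pull (-f)).deg := by
  have htriv : ∀ a : 𝔸.toPtF.pt K,
      Nonempty (CMod.Iso ((Par_E 𝓜).pull ((CPt.cst C a).pair h)) (CMod.one C K)) := by
    intro a
    rw [← CMod.cls_eq_iff, Par_cls_E, Pic.cls_one]
    have h1 := CMod.cls_eq_iff.mpr (hsq a (-a))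
    rw [Pic.cls_tensor, Pic.cls_tensor, add_neg_cancel, Par_cst_zero, add_zero, Par_cst_neg] at h1
    rw [← add_assoc, ← h1]
    abel
  obtain ⟨y₀, hy₀⟩ := hss (Par_E 𝓜) htriv
  have h2 := congrArg Pic.deg (CMod.cls_eq_iff.mpr hy₀)
  rw [Par_cls_E, Par_cls_E] at h2
  simp only [map_add, map_neg, Pic.deg_cls] at h2
  have h3 : (𝓜.pull (CPt.cst C y₀)).deg = 0 := by
    obtain ⟨e⟩ := 𝓜.pull_cst_iso (C := C) y₀
    rw [← e.deg_eq, CMod.deg_one]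
  have h4 : ∀ f' : CPt C 𝔸.toPtF K, (𝓜.pull (CPt.cst C y₀ + f')).deg = (𝓜.pull f').deg := by
    intro f'
    have := hTI f' y₀
    rwa [Par_base_self, add_comm] at this
  rw [h3, h4, h4] at h2
  rw [sub_eq_add_neg]
  linarith

end Fermat.Agent.S26
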