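/-
S26 / AV / QSlot (QS) : the quadratic law in one slot, from `s2` + `quad`.

`qslot_core` is the statement `qslot` of `AV/Chain.lean` with the black boxes that are not yet available as
separate files (`s2`, `quad`, `IsFreeComp.sub`, `IsFreeComp.trdeg_le`, `Curve.trdeg_FF`) as explicit hypotheses
(`HasCart G` is unfolded).
-/
import Fermat.Agent.S26.AV.DG2
import Fermat.Agent.S26.Curve.HomOps

set_option autoImplicit false

open scoped TensorProduct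

universe u

namespace Fermat.Agent.S26

variable {K : Type u} [Field K] [IsAlgClosed K] {𝔸 : AVF K} {g : ℕ}

omit [IsAlgClosed K] in
/-- `f ↦ f.gen` as a group homomorphism -/
private noncomputable def qslot_genHom (C : Curve K) (𝔸 : AVF K) :
    CPt C 𝔸.toPtF K →+ 𝔸.pt C.FF where
  toFun f := f.gen
  map_zero' := 𝔸.map_zero _
  map_add' f f' := 𝔸.map_add _ f.u01 f'.u01

theorem CPt.gen_nsmul {C : Curve K} (f : CPt C 𝔸.toPtF K) (m : ℕ) : (m • f).gen = m • f.gen :=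
  (qslot_genHom C 𝔸).map_nsmul m f

theorem CPt.gen_zsmul {C : Curve K} (f : CPt C 𝔸.toPtF K) (m : ℤ) : (m • f).gen = m • f.gen :=
  (qslot_genHom C 𝔸).map_zsmul m f

theorem CPt.gen_neg {C : Curve K} (f : CPt C 𝔸.toPtF K) : (-f).gen = - f.gen :=
  (qslot_genHom C 𝔸).map_neg f

/-- the arithmetic at the end -/
private theorem qslot_arith {n a b c : ℕ} {x y z : ℤ} (ha : (a : ℤ) = -x) (hb : (b : ℤ) = -y)
    (hc : (c : ℤ) = -z) (h : 2 * x = n * (n + 1) * y + n * (n - 1) * z) :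
    2 * a = n * (n + 1) * b + n * (n - 1) * c := by
  have hn : ((n * (n - 1) : ℕ) : ℤ) = (n : ℤ) * ((n : ℤ) - 1) := by
    rcases n with _ | n
    · simp
    · push_cast
      simp
  have : ((2 * a : ℕ) : ℤ) = ((n * (n + 1) * b + n * (n - 1) * c : ℕ) : ℤ) := by
    rw [Nat.cast_add, Nat.cast_mul (n * (n - 1)), hn]
    push_cast
    rw [ha, hb, hc]
    linarith
  exact_mod_cast this

/-- **QS**, with the black boxes as hypotheses. -/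
theorem qslot_core (G : Geo 𝔸 g)
    (hC : ∀ (P : Ideal G.R₀) [P.IsPrime], Algebra.trdeg K (G.R₀ ⧸ P) + 1 = g →
      Nonempty (CartDiv G P)) {C : Curve K}
    (f : CPt C 𝔸.toPtF K) (L : Type u) [Field L] [Algebra K L] (h : 𝔸.pt L)
    (Φ : Type u) [Field Φ] [Algebra K Φ] (i₁ : C.FF →ₐ[K] Φ) (i₂ : L →ₐ[K] Φ)
    (hL : Algebra.trdeg K L + 1 ≤ g) (n : ℕ)
    -- `quad`
    (hquad : ∀ (𝓜 : LBun 𝔸.toPtF) (f : CPt C 𝔸.toPtF K) (n : ℕ),
      2 * (𝓜.pull (n • f)).deg =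
        n * (n + 1) * (𝓜.pull f).deg + n * (n - 1) * (𝓜.pull (-f)).deg)
    -- `s2`
    (hs2 : ∀ (P : Ideal G.R₀) [P.IsPrime], Algebra.trdeg K (G.R₀ ⧸ P) + 1 = g →
      ∀ (D : CartDiv G P) (f : CPt C 𝔸.toPtF K) (Φ : Type u) [Field Φ] [Algebra K Φ]
        (i₁ : C.FF →ₐ[K] Φ) (i₂ : G.kV P →ₐ[K] Φ), IsFreeComp i₁ i₂ →
        (G.deg (𝔸.map i₁ f.gen + 𝔸.map i₂ (G.ηV P)) : ℤ) = - (D.L.pull (-f)).deg)
    -- `IsFreeComp.sub hΦ`
    (hsub : ∀ (L' : Type u) [Field L'] [Algebra K L'] (i : L' →ₐ[K] L),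
      ∃ (Φ' : IntermediateField K Φ) (k₁ : C.FF →ₐ[K] Φ') (k₂ : L' →ₐ[K] Φ'),
        Φ'.val.comp k₁ = i₁ ∧ Φ'.val.comp k₂ = i₂.comp i ∧ IsFreeComp k₁ k₂)
    -- `IsFreeComp.trdeg_le`
    (htr : ∀ (L' Φ' : Type u) [Field L'] [Algebra K L'] [Field Φ'] [Algebra K Φ']
      (k₁ : C.FF →ₐ[K] Φ') (k₂ : L' →ₐ[K] Φ'), IsFreeComp k₁ k₂ →
        Algebra.trdeg K Φ' ≤ Algebra.trdeg K C.FF + Algebra.trdeg K L')
    -- `Curve.trdeg_FF`
    (hFF : Algebra.trdeg K C.FF = 1) :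
    2 * G.deg (n • 𝔸.map i₁ f.gen + 𝔸.map i₂ h) =
      n * (n + 1) * G.deg (𝔸.map i₁ f.gen + 𝔸.map i₂ h) +
        n * (n - 1) * G.deg (- 𝔸.map i₁ f.gen + 𝔸.map i₂ h) := by
  obtain ⟨P, hPp, i, a, rfl⟩ := G.exists_eq_ηV h
  obtain ⟨Φ', k₁, k₂, hk₁, hk₂, hfree⟩ := hsub (G.kV P) i
  -- reduction to `Φ'`
  have hred : ∀ w : 𝔸.pt C.FF, G.deg (𝔸.map i₁ w + 𝔸.map i₂ (𝔸.map i (G.ηV P) + 𝔸.cst L a)) =
      G.deg (𝔸.map k₁ w + 𝔸.map k₂ (G.ηV P)) * Module.finrank Φ'.val.fieldRange Φ := by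
    intro w
    rw [← G.deg_map, 𝔸.map_add Φ'.val, ← 𝔸.map_comp, ← 𝔸.map_comp, hk₁, hk₂, 𝔸.map_add i₂,
      dg2_map_cst, ← 𝔸.map_comp, ← add_assoc, G.deg_add_cst]
  rw [← 𝔸.map_nsmul, ← 𝔸.map_neg, ← CPt.gen_nsmul, ← CPt.gen_neg, hred, hred, hred]
  -- the claim over `Φ'`
  have hclaim : 2 * G.deg (𝔸.map k₁ (n • f).gen + 𝔸.map k₂ (G.ηV P)) =
      n * (n + 1) * G.deg (𝔸.map k₁ f.gen + 𝔸.map k₂ (G.ηV P)) +
        n * (n - 1) * G.deg (𝔸.map k₁ (-f).gen + 𝔸.map k₂ (G.ηV P)) := by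
    have ht : Algebra.trdeg K (G.kV P) = Algebra.trdeg K (G.R₀ ⧸ P) :=
      trdeg_eq_of_isFractionRing K (G.R₀ ⧸ P) (G.kV P)
    have hle : Algebra.trdeg K (G.R₀ ⧸ P) + 1 ≤ g := by
      rw [← ht]
      exact le_trans (add_le_add_left (dg2_trdeg_le i) 1) hL
    rcases lt_or_eq_of_le hle with hlt | heq
    · have hΦ' : Algebra.trdeg K Φ' < g := by
        refine lt_of_le_of_lt (htr (G.kV P) Φ' k₁ k₂ hfree) ?_
        rw [hFF, ht, add_comm]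
        exact hlt
      rw [G.deg_eq_zero_of_trdeg_lt _ hΦ', G.deg_eq_zero_of_trdeg_lt _ hΦ',
        G.deg_eq_zero_of_trdeg_lt _ hΦ']
      simp
    · obtain ⟨D⟩ := hC P heq
      have h1 := hs2 P heq D (n • f) Φ' k₁ k₂ hfree
      have h2 := hs2 P heq D f Φ' k₁ k₂ hfree
      have h3 := hs2 P heq D (-f) Φ' k₁ k₂ hfree
      have h4 := hquad D.L (-f) n
      rw [smul_neg] at h4
      exact qslot_arith h1 h2 h3 h4
  calc 2 * (G.deg (𝔸.map k₁ (n • f).gen + 𝔸.map k₂ (G.ηV P)) *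
        Module.finrank Φ'.val.fieldRange Φ)
      = (2 * G.deg (𝔸.map k₁ (n • f).gen + 𝔸.map k₂ (G.ηV P))) *
        Module.finrank Φ'.val.fieldRange Φ := by ring
    _ = _ := by rw [hclaim]; ring

end Fermat.Agent.S26
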