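/-
S26 / AV / Quad (QUAD) : the quadratic recursion `2 D(n f) = n (n + 1) D(f) + n (n - 1) D(-f)` from
the parallelogram law.

`quad_core` is the statement `quad` of `AV/Chain.lean` with the black box `par` of `AV/Chain.lean`
as an explicit hypothesis, so that in `AV/Chain.lean`
`quad G hP 𝓜 f n = quad_core 𝓜 f (par G hP 𝓜) n`.
-/
import Fermat.Agent.S26.AV.Deg

set_option autoImplicit false

open scoped TensorProduct

universe u

namespace Fermat.Agent.S26

/-- the purely arithmetical content: a sequence with `D 0 = 0` and constant second difference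
`D 1 + E` is `n (n + 1) / 2 * D 1 + n (n - 1) / 2 * E`. -/
theorem Quad_arith (D : ℕ → ℤ) (E : ℤ) (h0 : D 0 = 0)
    (hrec : ∀ k : ℕ, D (k + 2) + D k = 2 * D (k + 1) + D 1 + E) (n : ℕ) :
    2 * D n = n * (n + 1) * D 1 + n * (n - 1) * E := by
  induction n using Nat.twoStepInduction with
  | zero => simp [h0]
  | one => simp
  | more k ih0 ih1 =>
    have h := hrec k
    push_cast at ih0 ih1 ⊢
    linear_combination 2 * h - ih0 + 2 * ih1

variable {K : Type u} [Field K] {𝔸 : AVF K}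

/-- the parallelogram law for `h = f = 0` forces `deg 𝓜[0] = 0` -/
theorem Quad_deg_zero (𝓜 : LBun 𝔸.toPtF) {C : Curve K}
    (hpar0 : (𝓜.pull ((0 : CPt C 𝔸.toPtF K) + 0)).deg + (𝓜.pull ((0 : CPt C 𝔸.toPtF K) - 0)).deg =
      2 * (𝓜.pull (0 : CPt C 𝔸.toPtF K)).deg + (𝓜.pull (0 : CPt C 𝔸.toPtF K)).deg +
        (𝓜.pull (-(0 : CPt C 𝔸.toPtF K))).deg) :
    (𝓜.pull (0 : CPt C 𝔸.toPtF K)).deg = 0 := by
  rw [add_zero, sub_zero, neg_zero] at hpar0
  linarith

/-- **Block QUAD**, with the parallelogram law as a hypothesis. -/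
theorem quad_core (𝓜 : LBun 𝔸.toPtF) {C : Curve K} (f : CPt C 𝔸.toPtF K)
    (hpar : ∀ h f : CPt C 𝔸.toPtF K, (𝓜.pull (h + f)).deg + (𝓜.pull (h - f)).deg =
      2 * (𝓜.pull h).deg + (𝓜.pull f).deg + (𝓜.pull (-f)).deg) (n : ℕ) :
    2 * (𝓜.pull (n • f)).deg =
      n * (n + 1) * (𝓜.pull f).deg + n * (n - 1) * (𝓜.pull (-f)).deg := by
  have key := Quad_arith (fun k => (𝓜.pull (k • f)).deg) (𝓜.pull (-f)).deg
    (by
      show (𝓜.pull ((0 : ℕ) • f)).deg = 0
      rw [zero_nsmul]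
      exact Quad_deg_zero 𝓜 (hpar 0 0))
    (by
      intro k
      show (𝓜.pull ((k + 2) • f)).deg + (𝓜.pull (k • f)).deg =
        2 * (𝓜.pull ((k + 1) • f)).deg + (𝓜.pull ((1 : ℕ) • f)).deg + (𝓜.pull (-f)).deg
      have h := hpar ((k + 1) • f) f
      have e1 : (k + 1) • f + f = (k + 2) • f := (succ_nsmul f (k + 1)).symm
      have e2 : (k + 1) • f - f = k • f := by rw [succ_nsmul, add_sub_cancel_right]
      rw [e1, e2] at h
      rw [one_nsmul]
      exact h) n
  simpa only [one_nsmul] using key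

end Fermat.Agent.S26
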