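/-
S26 / AV / TI : the degree is constant in the family `a ↦ (f + a)^* 𝓜`.
-/
import Fermat.Agent.S26.Curve.Coh
import Fermat.Agent.S26.Curve.Fam
import Fermat.Agent.S26.Curve.Pts

set_option autoImplicit false

open scoped TensorProduct

universe u

namespace Fermat.Agent.S26

section CPtAlg

variable {K : Type u} [Field K] {C : Curve K} {X : PtF K} {R R' R'' : Type u} [CommRing R]
  [Algebra K R] [CommRing R'] [Algebra K R'] [CommRing R''] [Algebra K R'']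

theorem CPt.ti_map_map (ψ : R' →ₐ[K] R'') (φ : R →ₐ[K] R') (u : CPt C X R) :
    (u.map φ).map ψ = u.map (ψ.comp φ) := by
  ext
  · show X.map (C.m0 ψ) (X.map (C.m0 φ) u.u0) = X.map (C.m0 (ψ.comp φ)) u.u0
    rw [← X.map_comp]
    congr 1
    ext <;> simp
  · show X.map (C.m1 ψ) (X.map (C.m1 φ) u.u1) = X.map (C.m1 (ψ.comp φ)) u.u1
    rw [← X.map_comp]
    congr 1
    ext <;> simp
  · show X.map (C.m01 ψ) (X.map (C.m01 φ) u.u01) = X.map (C.m01 (ψ.comp φ)) u.u01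
    rw [← X.map_comp]
    congr 1
    ext <;> simp

theorem ti_comp_ofId (w : R →ₐ[K] R') : w.comp (Algebra.ofId K R) = Algebra.ofId K R' :=
  AlgHom.ext fun c => by simp [Algebra.ofId_apply]

theorem CPt.ti_base_map (f : CPt C X K) (w : R →ₐ[K] R') : (f.base R).map w = f.base R' := by
  rw [CPt.ti_map_map, ti_comp_ofId]

theorem CPt.ti_cst_map (w : R →ₐ[K] R') (p : X.pt R) :
    (CPt.cst C p).map w = CPt.cst C (X.map w p) := by
  ext
  · show X.map (C.m0 w) (X.map _ p) = X.map _ (X.map w p)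
    rw [← X.map_comp, ← X.map_comp]
    congr 1
  · show X.map (C.m1 w) (X.map _ p) = X.map _ (X.map w p)
    rw [← X.map_comp, ← X.map_comp]
    congr 1
  · show X.map (C.m01 w) (X.map _ p) = X.map _ (X.map w p)
    rw [← X.map_comp, ← X.map_comp]
    congr 1

theorem CPt.ti_base_self (f : CPt C X K) : f.base K = f := by
  ext
  · show X.map (C.m0 (Algebra.ofId K K)) f.u0 = f.u0
    have : C.m0 (Algebra.ofId K K) = AlgHom.id K (C.S0 K) := by ext; simp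
    rw [this, X.map_id]
  · show X.map (C.m1 (Algebra.ofId K K)) f.u1 = f.u1
    have : C.m1 (Algebra.ofId K K) = AlgHom.id K (C.S1 K) := by ext; simp
    rw [this, X.map_id]
  · show X.map (C.m01 (Algebra.ofId K K)) f.u01 = f.u01
    have : C.m01 (Algebra.ofId K K) = AlgHom.id K (C.S01 K) := by ext; simp
    rw [this, X.map_id]

theorem CPt.ti_cst_zero {𝔸 : AVF K} : CPt.cst C (X := 𝔸.toPtF) (0 : 𝔸.pt R) = 0 := by
  ext
  · exact 𝔸.map_zero _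
  · exact 𝔸.map_zero _
  · exact 𝔸.map_zero _

theorem AVF.ti_map_cst (𝔸 : AVF K) (w : R →ₐ[K] R') (a : 𝔸.pt K) :
    𝔸.map w (𝔸.cst R a) = 𝔸.cst R' a := by
  unfold AVF.cst
  rw [← 𝔸.map_comp, ti_comp_ofId]

theorem AVF.ti_cst_zero (𝔸 : AVF K) : 𝔸.cst R (0 : 𝔸.pt K) = 0 := 𝔸.map_zero _

end CPtAlg

variable {K : Type u} [Field K] [IsAlgClosed K] {𝔸 : AVF K} {g : ℕ}

/-- the universal translate `f + (ι₀ + a)` over `U₀` -/
def tiPt (G : Geo 𝔸 g) {C : Curve K} (f : CPt C 𝔸.toPtF K) (a : 𝔸.pt K) :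
    CPt C 𝔸.toPtF G.R₀ :=
  f.base G.R₀ + CPt.cst C (X := 𝔸.toPtF) (G.ι₀ + 𝔸.cst G.R₀ a)

omit [IsAlgClosed K] in
theorem tiPt_map (G : Geo 𝔸 g) {C : Curve K} (f : CPt C 𝔸.toPtF K) (a : 𝔸.pt K)
    {κ : Type u} [CommRing κ] [Algebra K κ] (w : G.R₀ →ₐ[K] κ) :
    (tiPt G f a).map w
      = f.base κ + CPt.cst C (X := 𝔸.toPtF) (𝔸.map w G.ι₀ + 𝔸.cst κ a) := by
  unfold tiPt
  rw [CPt.map_add, CPt.ti_base_map, CPt.ti_cst_map]
  congr 2
  exact (𝔸.map_add w _ _).trans (by rw [𝔸.ti_map_cst])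

theorem ti_deg_const (G : Geo 𝔸 g) (𝓜 : LBun 𝔸.toPtF) {C : Curve K} (f : CPt C 𝔸.toPtF K)
    (a : 𝔸.pt K) {κ κ' : Type u} [Field κ] [Algebra K κ] [Field κ'] [Algebra K κ']
    (w : G.R₀ →ₐ[K] κ) (w' : G.R₀ →ₐ[K] κ') :
    (𝓜.pull ((tiPt G f a).map w)).deg = (𝓜.pull ((tiPt G f a).map w')).deg :=
  CMod.deg_const (𝓜.pull (tiPt G f a)) w w' _ _ (𝓜.pullHom w (tiPt G f a) rfl)
    (𝓜.pullHom w' (tiPt G f a) rfl) (𝓜.pullHom_isPullback w _ rfl)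
    (𝓜.pullHom_isPullback w' _ rfl)

theorem deg_pull_trans (G : Geo 𝔸 g) (𝓜 : LBun 𝔸.toPtF) {C : Curve K} (f : CPt C 𝔸.toPtF K)
    (κ : Type u) [Field κ] [Algebra K κ] (u : 𝔸.pt κ) :
    (𝓜.pull (f.base κ + CPt.cst C u)).deg = (𝓜.pull f).deg := by
  obtain ⟨l, hl⟩ := G.cover
  obtain ⟨a, -, w, hu⟩ := hl κ u
  obtain ⟨j, -, hj⟩ := G.gen_trans a
  have e1 : f.base κ + CPt.cst C u = (tiPt G f a).map w := by rw [tiPt_map, hu]
  have e2 : (tiPt G f a).map (IsScalarTower.toAlgHom K G.R₀ (FractionRing G.R₀))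
      = (tiPt G f 0).map j := by
    rw [tiPt_map, tiPt_map, hj, 𝔸.ti_cst_zero, add_zero]
  have e3 : (tiPt G f 0).map G.ε₀ = f := by
    rw [tiPt_map, G.ε₀_ι₀, 𝔸.ti_cst_zero, add_zero, CPt.ti_cst_zero, add_zero, CPt.ti_base_self]
  rw [e1, ti_deg_const G 𝓜 f a w (IsScalarTower.toAlgHom K G.R₀ (FractionRing G.R₀)), e2,
    ti_deg_const G 𝓜 f 0 j G.ε₀, e3]

end Fermat.Agent.S26
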