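/-
S26 / AV / Chain : THE TOP LEVEL CHAIN (block contracts), wired to the blocks (INT-TOP).
-/
import Fermat.Agent.S26.AV.Deg
import Fermat.Agent.S26.Curve.HomOps
import Fermat.Agent.S26.Alg.FinalArith
import Fermat.Agent.S26.Alg.FreeComp
import Fermat.Agent.S26.AV.DG2
import Fermat.Agent.S26.AV.TI
import Fermat.Agent.S26.AV.Par
import Fermat.Agent.S26.AV.Quad
import Fermat.Agent.S26.AV.QSlot
import Fermat.Agent.S26.AV.DN
import Fermat.Agent.S26.T6.Main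
import Fermat.Agent.S26.PI.Ge
import Fermat.Agent.S26.Rig.Main
import Fermat.Agent.S26.SS.Main
import Fermat.Agent.S26.S2.Main

set_option autoImplicit false

open scoped TensorProduct

universe u

namespace Fermat.Agent.S26

variable {K : Type u} [Field K] [IsAlgClosed K] {𝔸 : AVF K} {g : ℕ}

/-- the hypothesis "prime divisors are Cartier" -/
def HasCart (G : Geo 𝔸 g) : Prop :=
  ∀ (P : Ideal G.R₀) [P.IsPrime], Algebra.trdeg K (G.R₀ ⧸ P) + 1 = g → Nonempty (CartDiv G P)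

/-! ### Block DG : degrees of field valued points : `AV/DG1.lean`, `AV/DG2.lean` -/

/-! ### Block TI : the degree is constant in the family `a ↦ (f + a)^* 𝓜` : `AV/TI.lean` -/

/-! ### Block RIG : the theorem of the square, restricted to a curve -/

theorem square (G : Geo 𝔸 g) (hP : HasProj 𝔸) (𝓜 : LBun 𝔸.toPtF) {C : Curve K}
    (h : CPt C 𝔸.toPtF K) (y z : 𝔸.pt K) :
    Nonempty (CMod.Iso ((𝓜.pull (h + CPt.cst C (y + z))).tensor (𝓜.pull h))
      ((𝓜.pull (h + CPt.cst C y)).tensor (𝓜.pull (h + CPt.cst C z)))) :=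
  square_of_TI 𝓜 h G hP (fun 𝓜 _ f κ _ _ u => deg_pull_trans G 𝓜 f κ u) y z

/-! ### Block SS : seesaw over the Dedekind charts of `C` -/

theorem seesaw {X Y : PtF K} (𝓔 : LBun (X.prod Y)) {C : Curve K} (f : CPt C X K) (h : CPt C Y K)
    (htriv : ∀ a : X.pt K, Nonempty (CMod.Iso (𝓔.pull ((CPt.cst C a).pair h)) (CMod.one C K))) :
    ∃ y₀ : Y.pt K, Nonempty (CMod.Iso (𝓔.pull (f.pair h)) (𝓔.pull (f.pair (CPt.cst C y₀)))) :=
  seesaw' 𝓔 h f htriv

/-! ### Block PAR : the parallelogram law and the quadratic recursion -/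

theorem par (G : Geo 𝔸 g) (hP : HasProj 𝔸) (𝓜 : LBun 𝔸.toPtF) {C : Curve K}
    (h f : CPt C 𝔸.toPtF K) :
    (𝓜.pull (h + f)).deg + (𝓜.pull (h - f)).deg =
      2 * (𝓜.pull h).deg + (𝓜.pull f).deg + (𝓜.pull (-f)).deg :=
  par_core 𝓜 h f (square G hP 𝓜 h) (fun 𝓔 => seesaw 𝓔 f h) (fun f u => deg_pull_trans G 𝓜 f K u)

theorem quad (G : Geo 𝔸 g) (hP : HasProj 𝔸) (𝓜 : LBun 𝔸.toPtF) {C : Curve K}
    (f : CPt C 𝔸.toPtF K) (n : ℕ) :
    2 * (𝓜.pull (n • f)).deg =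
      n * (n + 1) * (𝓜.pull f).deg + n * (n - 1) * (𝓜.pull (-f)).deg :=
  quad_core 𝓜 f (par G hP 𝓜) n

/-! ### Block S2 : the degree of `f + η_V` is an intersection number : `S2/Main.lean` -/

/-! ### Block QS : the quadratic law in one slot -/

theorem qslot (G : Geo 𝔸 g) (hP : HasProj 𝔸) (hC : HasCart G) {C : Curve K}
    (f : CPt C 𝔸.toPtF K) (L : Type u) [Field L] [Algebra K L] (h : 𝔸.pt L)
    (Φ : Type u) [Field Φ] [Algebra K Φ] (i₁ : C.FF →ₐ[K] Φ) (i₂ : L →ₐ[K] Φ)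
    (hΦ : IsFreeComp i₁ i₂) (hL : Algebra.trdeg K L + 1 ≤ g) (n : ℕ) :
    2 * G.deg (n • 𝔸.map i₁ f.gen + 𝔸.map i₂ h) =
      n * (n + 1) * G.deg (𝔸.map i₁ f.gen + 𝔸.map i₂ h) +
        n * (n - 1) * G.deg (- 𝔸.map i₁ f.gen + 𝔸.map i₂ h) :=
  qslot_core G hC f L h Φ i₁ i₂ hL n (fun 𝓜 f n => quad G hP 𝓜 f n)
    (fun P _ htr D f Φ _ _ i₁ i₂ hΦ => s2 G P htr D f Φ i₁ i₂ hΦ)
    (fun _ _ _ i => hΦ.sub i) (fun _ _ _ _ _ _ _ _ h => h.trdeg_le) C.trdeg_FF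

/-! ### Block T6 : `g` curves through the origin whose sum is generic : `T6/Main.lean` -/

/-! ### Block FC : a compositum of the right transcendence degree is free : `Alg/FreeComp.lean` -/

/-! ### Block DN : `d(n) = n ^ (2 g)` -/

theorem deg_nsmul_η (G : Geo 𝔸 g) (hP : HasProj 𝔸) (hC : HasCart G) (n : ℕ) (hn : 1 ≤ n) :
    G.deg (n • G.η) = n ^ (2 * g) :=
  DN_deg_nsmul_η G (exists_curves G)
    (fun f L _ _ h Φ _ _ i₁ i₂ hΦ hL n => qslot G hP hC f L h Φ i₁ i₂ hΦ hL n)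
    (fun i₁ L a b hF hL hΦ hgen => isFreeComp_of_trdeg i₁ L a b hF hL hΦ hgen)
    (fun n u => G.deg_nsmul n u)
    (fun Φ _ _ F _ _ j s c h => trdeg_adjoin_iUnion_le K Φ F j s c h) Curve.trdeg_FF n hn

/-! ### Block PI : counting the torsion points : `PI/Ge.lean` -/

/-! ### The abstract main theorem -/

theorem card_torsion (G : Geo 𝔸 g) (hP : HasProj 𝔸) (hC : HasCart G) (n : ℕ) (hn : (n : K) ≠ 0) :
    Nat.card {a : 𝔸.pt K // n • a = 0} = n ^ (2 * g) := by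
  have hn1 : 1 ≤ n := by
    rcases Nat.eq_zero_or_pos n with rfl | h
    · simp at hn
    · exact h
  refine card_torsion_of_deg G n _ (deg_nsmul_η G hP hC n hn1) ?_
  rw [Nat.cast_pow]
  exact pow_ne_zero _ hn

end Fermat.Agent.S26
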